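import Mathlib
import Fermat.Agent.S15.H2.FiniteSplit

/-!
# Row S15, DESC skeleton leaf ALG0 (helper286): the abstract algebra

`alg0_abstract` : pure algebra (Mathlib + `H2.exists_isSplit`).  Setting:

* `J` an abelian group with a commutative ring `T` of operators and a family `act σ` of additive
  maps commuting with `T` (`σ` = Galois);
* `A = J^G`, `W_E = {w | r w = 0, every gen i is nilpotent on w}`,
  `Y_E = {y | r y ∈ A, σ y - y ∈ W_E}`;
* `J` is `r`-divisible, `J[n]` is finite for `n > 0`, the torsion of `A` is killed by `e > 0`;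
* SEL-BOUND: `[Y_E : A + W_E] ≤ |W_E ∩ A|` (finite index).

Conclusion: if `z ∈ A` and `gen i • z ∈ r A + A_tors` for all `i`, then `z ∈ r A + A_tors`.

Proof.  `f` := the idempotent of `H2.exists_isSplit` on the finite `T`-module `J[r e]` at the
ideal `𝔪 = (r, gen i)`; `ker f ∩ J[r] = W_E`.  `R := {x ∈ A | f f x ∈ r A}`,
`X_E := A_tors ∩ ker f`.  Multiplication by `r` maps `Y_E` onto a group containing `R`, with
`(r • ·)⁻¹ (r A) ∩ Y_E = A + W_E`; so `[R : r A] ≤ [Y_E : A + W_E] ≤ |W_E ∩ A|`.  On the other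
hand `[r A + X_E : r A] = [X_E : r X_E] = |X_E[r]| = |W_E ∩ A|`.  Hence `R = r A + X_E`.
Finally `f z = r a + τ` with `τ` rational torsion, and `z - τ ∈ R`.
-/

set_option autoImplicit false

namespace Fermat.Agent.S15.H286

open Fermat.Agent.S15.H2

section Abs

variable {J T G ι : Type*} [AddCommGroup J] [CommRing T] [Module T J]

/-- Index bookkeeping: if `H ≤ H ⊔ X ≤ R ≤ Y'`, `[Y' : H] ≤ g`, finite, and `[H ⊔ X : H] = g`,
then `R ≤ H ⊔ X`. -/
theorem le_sup_of_relIndex_le {H X R Y' : AddSubgroup J} {g : ℕ}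
    (hHR : H ≤ R) (hXR : X ≤ R) (hRY : R ≤ Y')
    (hne : H.relIndex Y' ≠ 0) (hle : H.relIndex Y' ≤ g) (hX : H.relIndex X = g) :
    R ≤ H ⊔ X := by
  have hHY : H ≤ Y' := hHR.trans hRY
  have h1 : H.relIndex R * R.relIndex Y' = H.relIndex Y' :=
    AddSubgroup.relIndex_mul_relIndex H R Y' hHR hRY
  have hR0 : H.relIndex R ≠ 0 := fun h => hne (by rw [← h1, h, zero_mul])
  have hR : H.relIndex R ≤ H.relIndex Y' := AddSubgroup.relIndex_le_of_le_right hRY hne
  have hsup : H.relIndex (H ⊔ X) = g := by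
    rw [AddSubgroup.relIndex_sup_left, hX]
  have hsupR : H ⊔ X ≤ R := sup_le hHR hXR
  have h2 : H.relIndex (H ⊔ X) * (H ⊔ X).relIndex R = H.relIndex R :=
    AddSubgroup.relIndex_mul_relIndex H (H ⊔ X) R le_sup_left hsupR
  have h3 : H.relIndex (H ⊔ X) ≤ H.relIndex R :=
    AddSubgroup.relIndex_le_of_le_right hsupR hR0
  have h4 : H.relIndex R = g := le_antisymm (hR.trans hle) (hsup ▸ h3)
  have hg0 : g ≠ 0 := fun h => hR0 (h4.trans h)
  have h5 : (H ⊔ X).relIndex R = 1 := by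
    rw [hsup, h4] at h2
    exact Nat.eq_of_mul_eq_mul_left (Nat.pos_of_ne_zero hg0) (by rw [h2, mul_one])
  exact AddSubgroup.relIndex_eq_one.mp h5

/-- For a finite abelian group `X`, `[X : r X] = |X[r]|`, in subgroup form inside `J`. -/
theorem relIndex_map_nsmul_eq_card (r : ℕ) (X : AddSubgroup J) [Finite X] :
    (X.map (nsmulAddMonoidHom r)).relIndex X
      = Nat.card ↥(X ⊓ (nsmulAddMonoidHom r : J →+ J).ker) := by
  classical
  -- multiplication by `r` on `X`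
  let ψ : X →+ X := nsmulAddMonoidHom r
  have h1 : ψ.range.index = Nat.card ψ.ker := AddSubgroup.index_range
  have h2 : (X.map (nsmulAddMonoidHom r)).addSubgroupOf X = ψ.range := by
    ext x
    rw [AddSubgroup.mem_addSubgroupOf, AddSubgroup.mem_map, AddMonoidHom.mem_range]
    constructor
    · rintro ⟨y, hy, hyx⟩
      exact ⟨⟨y, hy⟩, Subtype.ext hyx⟩
    · rintro ⟨y, hy⟩
      exact ⟨y.1, y.2, congrArg Subtype.val hy⟩
  have h3 : Nat.card ψ.ker = Nat.card ↥(X ⊓ (nsmulAddMonoidHom r : J →+ J).ker) := by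
    refine Nat.card_congr
      { toFun := fun x => ⟨x.1.1, ⟨x.1.2, ?_⟩⟩
        invFun := fun x => ⟨⟨x.1, x.2.1⟩, ?_⟩
        left_inv := fun x => rfl
        right_inv := fun x => rfl }
    · have h : x.1 ∈ ψ.ker := x.2
      rw [AddMonoidHom.mem_ker] at h
      show (x.1.1 : J) ∈ (nsmulAddMonoidHom r : J →+ J).ker
      rw [AddMonoidHom.mem_ker]
      exact congrArg Subtype.val h
    · have h : (x.1 : J) ∈ (nsmulAddMonoidHom r : J →+ J).ker := x.2.2
      rw [AddMonoidHom.mem_ker] at h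
      show (⟨x.1, x.2.1⟩ : X) ∈ ψ.ker
      rw [AddMonoidHom.mem_ker]
      exact Subtype.ext h
  rw [AddSubgroup.relIndex, h2, h1, h3]


/-- **ALG0, abstract form.** -/
theorem alg0_abstract
    (act : G → J →+ J)
    (hcomm : ∀ (t : T) (σ : G) (x : J), t • act σ x = act σ (t • x))
    (r : ℕ) (hr : 0 < r) (gen : ι → T)
    (hdiv : ∀ x : J, ∃ y : J, r • y = x)
    (hfin : ∀ n : ℕ, 0 < n → {x : J | n • x = 0}.Finite)
    (e : ℕ) (he : 0 < e)
    (hrtf : ∀ t : J, (∀ σ, act σ t = t) → (∃ m : ℕ, 0 < m ∧ m • t = 0) → e • t = 0)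
    (A WE YE : AddSubgroup J)
    (hA : ∀ x, x ∈ A ↔ ∀ σ, act σ x = x)
    (hWE : ∀ w, w ∈ WE ↔ r • w = 0 ∧ ∀ i, ∃ k : ℕ, gen i ^ k • w = 0)
    (hYE : ∀ y, y ∈ YE ↔ (∀ σ, act σ (r • y) = r • y) ∧ ∀ σ, act σ y - y ∈ WE)
    (hidx : (A ⊔ WE).relIndex YE ≠ 0)
    (hle : (A ⊔ WE).relIndex YE ≤ Nat.card ↥(WE ⊓ A))
    (z : J) (hz : z ∈ A)
    (hzE : ∀ i, ∃ w ∈ A, ∃ m : ℕ, 0 < m ∧ m • (gen i • z - r • w) = 0) :
    ∃ w ∈ A, ∃ m : ℕ, 0 < m ∧ m • (z - r • w) = 0 := by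
  classical
  set 𝔪 : Ideal T := Ideal.span (insert (r : T) (Set.range gen)) with h𝔪
  have hr𝔪 : (r : T) ∈ 𝔪 := Ideal.subset_span (Set.mem_insert _ _)
  have hgen𝔪 : ∀ i, gen i ∈ 𝔪 := fun i =>
    Ideal.subset_span (Set.mem_insert_of_mem _ (Set.mem_range_self i))
  have hn0 : 0 < r * e := Nat.mul_pos hr he
  -- `X = J[r e]`, a finite `T`-module
  let X : Submodule T J :=
    { carrier := {x | (r * e) • x = 0}
      zero_mem' := smul_zero _
      add_mem' := fun {a b} ha hb => by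
        show (r * e) • (a + b) = 0
        rw [smul_add, show (r * e) • a = 0 from ha, show (r * e) • b = 0 from hb, add_zero]
      smul_mem' := fun t x hx => by
        show (r * e) • (t • x) = 0
        rw [smul_comm, show (r * e) • x = 0 from hx, smul_zero] }
  have : Finite X := (hfin (r * e) hn0).to_subtype
  obtain ⟨K, f, hs⟩ := exists_isSplit 𝔪 X
  have hK : K ≠ 0 := by have := hs.pos; omega
  have hf𝔪 : f ∈ 𝔪 := Ideal.pow_le_self hK hs.mem
  -- the properties of `f` on `J[r e]`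
  have hidem : ∀ x : J, (r * e) • x = 0 → f • f • x = f • x := fun x hx =>
    congrArg Subtype.val (hs.idem (⟨x, hx⟩ : X))
  have hkill : ∀ t ∈ 𝔪 ^ K, ∀ x : J, (r * e) • x = 0 → t • (x - f • x) = 0 :=
    fun t ht x hx => congrArg Subtype.val (hs.kill t ht (⟨x, hx⟩ : X))
  have hpow : ∀ x : J, (r * e) • x = 0 → ∀ n : ℕ, 1 ≤ n → f ^ n • x = f • x :=
    fun x hx n hn => congrArg Subtype.val (hs.pow_smul (⟨x, hx⟩ : X) n hn)
  -- torsion bookkeeping
  have hre_of_r : ∀ w : J, r • w = 0 → (r * e) • w = 0 := fun w hw => by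
    rw [mul_comm, mul_smul, hw, smul_zero]
  have hre_of_e : ∀ w : J, e • w = 0 → (r * e) • w = 0 := fun w hw => by
    rw [mul_smul, hw, smul_zero]
  have hTA : ∀ (t : T) (x : J), x ∈ A → t • x ∈ A := fun t x hx => by
    rw [hA] at hx ⊢
    intro σ
    rw [← hcomm, hx σ]
  have hAt : ∀ x : J, x ∈ A → (∃ m : ℕ, 0 < m ∧ m • x = 0) → (r * e) • x = 0 :=
    fun x hx ht => hre_of_e x (hrtf x ((hA x).1 hx) ht)
  have hfsub : ∀ x : J, (r * e) • x = 0 → f • (x - f • x) = 0 := fun x hx => by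
    rw [smul_sub, hidem x hx, sub_self]
  -- (F1) `ker f ∩ J[r] = W_E`
  have hF1 : ∀ w : J, r • w = 0 → f • w = 0 → w ∈ WE := by
    intro w hw hfw
    rw [hWE]
    refine ⟨hw, fun i => ⟨K, ?_⟩⟩
    have := hkill (gen i ^ K) (Ideal.pow_mem_pow (hgen𝔪 i) K) w (hre_of_r w hw)
    rwa [hfw, sub_zero] at this
  have hF1' : ∀ w : J, w ∈ WE → f • w = 0 := by
    intro w hw
    rw [hWE] at hw
    obtain ⟨hrw, hnil⟩ := hw
    have hle𝔪 : 𝔪 ≤ (Ideal.torsionOf T J w).radical := by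
      refine Ideal.span_le.2 ?_
      rintro s (rfl | ⟨i, rfl⟩)
      · refine Ideal.le_radical ?_
        show (r : T) ∈ Ideal.torsionOf T J w
        rw [Ideal.mem_torsionOf_iff, Nat.cast_smul_eq_nsmul]
        exact hrw
      · obtain ⟨k, hk⟩ := hnil i
        show gen i ∈ (Ideal.torsionOf T J w).radical
        exact Ideal.mem_radical_iff.mpr ⟨k, (Ideal.mem_torsionOf_iff _ _).2 hk⟩
    obtain ⟨n, hn⟩ := Ideal.mem_radical_iff.mp (hle𝔪 hf𝔪)
    rw [Ideal.mem_torsionOf_iff] at hn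
    rcases Nat.eq_zero_or_pos n with rfl | hnpos
    · rw [pow_zero, one_smul] at hn
      rw [hn, smul_zero]
    · rw [← hpow w (hre_of_r w hrw) n hnpos]
      exact hn
  have hWEr : ∀ w : J, w ∈ WE → r • w = 0 := fun w hw => ((hWE w).1 hw).1
  -- the subgroups
  let φ : J →+ J := nsmulAddMonoidHom r
  have hφ : ∀ x : J, φ x = r • x := fun _ => rfl
  let H : AddSubgroup J := A.map φ
  have hH : ∀ x : J, x ∈ H ↔ ∃ a ∈ A, r • a = x := fun x => AddSubgroup.mem_map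
  let R : AddSubgroup J :=
    { carrier := {x | x ∈ A ∧ ∃ a ∈ A, f • f • x = r • a}
      zero_mem' := ⟨A.zero_mem, 0, A.zero_mem, by rw [smul_zero, smul_zero, smul_zero]⟩
      add_mem' := by
        rintro x y ⟨hx, a, ha, hxa⟩ ⟨hy, b, hb, hyb⟩
        exact ⟨A.add_mem hx hy, a + b, A.add_mem ha hb, by
          rw [smul_add, smul_add, hxa, hyb, smul_add]⟩
      neg_mem' := by
        rintro x ⟨hx, a, ha, hxa⟩
        exact ⟨A.neg_mem hx, -a, A.neg_mem ha, by rw [smul_neg, smul_neg, hxa, smul_neg]⟩ }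
  have hR : ∀ x : J, x ∈ R ↔ x ∈ A ∧ ∃ a ∈ A, f • f • x = r • a := fun _ => Iff.rfl
  let XE : AddSubgroup J :=
    { carrier := {x | x ∈ A ∧ (∃ m : ℕ, 0 < m ∧ m • x = 0) ∧ f • x = 0}
      zero_mem' := ⟨A.zero_mem, ⟨1, one_pos, smul_zero _⟩, smul_zero _⟩
      add_mem' := by
        rintro x y ⟨hx, ⟨m, hm, hmx⟩, hfx⟩ ⟨hy, ⟨n, hn, hny⟩, hfy⟩
        refine ⟨A.add_mem hx hy, ⟨m * n, Nat.mul_pos hm hn, ?_⟩, by
          rw [smul_add, hfx, hfy, add_zero]⟩
        rw [smul_add, mul_comm m n, mul_smul, hmx, smul_zero, mul_comm n m, mul_smul, hny,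
          smul_zero, add_zero]
      neg_mem' := by
        rintro x ⟨hx, ⟨m, hm, hmx⟩, hfx⟩
        exact ⟨A.neg_mem hx, ⟨m, hm, by rw [smul_neg, hmx, neg_zero]⟩, by
          rw [smul_neg, hfx, neg_zero]⟩ }
  have hXE : ∀ x : J, x ∈ XE ↔ x ∈ A ∧ (∃ m : ℕ, 0 < m ∧ m • x = 0) ∧ f • x = 0 :=
    fun _ => Iff.rfl
  have : Finite XE :=
    ((hfin (r * e) hn0).subset (fun x (hx : x ∈ XE) => hAt x hx.1 hx.2.1)).to_subtype
  let Y' : AddSubgroup J := YE.map φ
  -- `H ≤ R`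
  have hHR : H ≤ R := by
    intro x hx
    obtain ⟨a, ha, rfl⟩ := (hH x).1 hx
    refine ⟨A.nsmul_mem ha r, f • f • a, hTA f _ (hTA f _ ha), ?_⟩
    rw [smul_comm f r a, smul_comm f r (f • a)]
  -- `X_E ≤ R`
  have hXR : XE ≤ R := by
    rintro x ⟨hx, _, hfx⟩
    exact ⟨hx, 0, A.zero_mem, by rw [hfx, smul_zero, smul_zero]⟩
  -- (F3) `R ≤ r Y_E`
  have hRY : R ≤ Y' := by
    rintro x ⟨hx, a, ha, hxa⟩
    obtain ⟨y₀, hy₀⟩ := hdiv x
    have hxfix := (hA x).1 hx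
    have hafix := (hA a).1 ha
    refine AddSubgroup.mem_map.2 ⟨y₀ - f • f • y₀ + a, ?_, ?_⟩
    · rw [hYE]
      have hry : r • (y₀ - f • f • y₀ + a) = x := by
        rw [smul_add, smul_sub, smul_comm r f (f • y₀), smul_comm r f y₀, hy₀, hxa]
        abel
      refine ⟨fun σ => by rw [hry, hxfix σ], fun σ => ?_⟩
      -- the cocycle
      have hc : r • (act σ y₀ - y₀) = 0 := by
        rw [smul_sub, ← map_nsmul, hy₀, hxfix σ, sub_self]
      have hc' := hre_of_r _ hc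
      have hcalc : act σ (y₀ - f • f • y₀ + a) - (y₀ - f • f • y₀ + a)
          = (act σ y₀ - y₀) - f • (act σ y₀ - y₀) := by
        rw [map_add, map_sub, hafix σ, ← hcomm, ← hcomm, ← hidem _ hc', smul_sub, smul_sub]
        abel
      rw [hcalc]
      refine hF1 _ ?_ (hfsub _ hc')
      rw [smul_sub, smul_comm r f, hc, smul_zero, sub_zero]
    · rw [hφ, smul_add, smul_sub, smul_comm r f (f • y₀), smul_comm r f y₀, hy₀, hxa]
      abel
  -- (F4) the kernel
  have hker : H.comap φ ⊓ YE = (A ⊔ WE) ⊓ YE := by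
    ext y
    simp only [AddSubgroup.mem_inf, AddSubgroup.mem_comap]
    constructor
    · rintro ⟨hyH, hyY⟩
      refine ⟨?_, hyY⟩
      obtain ⟨a, ha, hay⟩ := (hH _).1 hyH
      rw [hφ] at hay
      have hafix := (hA a).1 ha
      have hyY' := (hYE y).1 hyY
      have hw : r • (y - a) = 0 := by rw [smul_sub, hay, sub_self]
      have hw' := hre_of_r _ hw
      have hcoc : ∀ σ, act σ (y - a) - (y - a) ∈ WE := fun σ => by
        have : act σ (y - a) - (y - a) = act σ y - y := by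
          rw [map_sub, hafix σ]; abel
        rw [this]
        exact hyY'.2 σ
      have h1 : f • (y - a) ∈ A := by
        rw [hA]
        intro σ
        have h0 := hF1' _ (hcoc σ)
        rw [smul_sub, sub_eq_zero, hcomm] at h0
        exact h0
      have h2 : (y - a) - f • (y - a) ∈ WE := by
        refine hF1 _ ?_ (hfsub _ hw')
        rw [smul_sub, smul_comm r f, hw, smul_zero, sub_zero]
      exact AddSubgroup.mem_sup.2 ⟨a + f • (y - a), A.add_mem ha h1, _, h2, by abel⟩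
    · rintro ⟨hyS, hyY⟩
      refine ⟨?_, hyY⟩
      obtain ⟨a, ha, w, hw, rfl⟩ := AddSubgroup.mem_sup.1 hyS
      rw [hH]
      exact ⟨a, ha, by rw [hφ, smul_add, hWEr w hw, add_zero]⟩
  have hidx' : H.relIndex Y' = (A ⊔ WE).relIndex YE := by
    rw [← AddSubgroup.relIndex_comap, ← AddSubgroup.inf_relIndex_right, hker,
      AddSubgroup.inf_relIndex_right]
  -- (F8) `r A ∩ X_E = r X_E`
  have hF8 : H ⊓ XE = XE.map φ := by
    ext x
    rw [AddSubgroup.mem_inf, AddSubgroup.mem_map]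
    constructor
    · rintro ⟨hxH, hxA, ⟨m, hm, hmx⟩, hfx⟩
      obtain ⟨a, ha, rfl⟩ := (hH x).1 hxH
      have hat : (m * r) • a = 0 := by rw [mul_smul]; exact hmx
      have ha0 := hAt a ha ⟨m * r, Nat.mul_pos hm hr, hat⟩
      refine ⟨a - f • a, ⟨A.sub_mem ha (hTA f a ha), ⟨m * r, Nat.mul_pos hm hr, ?_⟩,
        hfsub a ha0⟩, ?_⟩
      · rw [smul_sub, smul_comm (m * r) f a, hat, smul_zero, sub_zero]
      · rw [hφ, smul_sub, smul_comm r f a, hfx, sub_zero]
    · rintro ⟨a, ⟨haA, ⟨m, hm, hma⟩, hfa⟩, rfl⟩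
      refine ⟨(hH _).2 ⟨a, haA, rfl⟩, A.nsmul_mem haA r, ⟨m, hm, ?_⟩, ?_⟩
      · rw [hφ, smul_comm m r a, hma, smul_zero]
      · rw [hφ, smul_comm f r a, hfa, smul_zero]
  have hXker : XE ⊓ φ.ker = WE ⊓ A := by
    ext x
    rw [AddSubgroup.mem_inf, AddSubgroup.mem_inf, AddMonoidHom.mem_ker, hφ]
    constructor
    · rintro ⟨⟨hxA, _, hfx⟩, hrx⟩
      exact ⟨hF1 x hrx hfx, hxA⟩
    · rintro ⟨hxW, hxA⟩
      exact ⟨⟨hxA, ⟨r, hr, hWEr x hxW⟩, hF1' x hxW⟩, hWEr x hxW⟩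
  have hXcard : H.relIndex XE = Nat.card ↥(WE ⊓ A) := by
    rw [← AddSubgroup.inf_relIndex_right, hF8, relIndex_map_nsmul_eq_card r XE, hXker]
  -- the count
  have hRle : R ≤ H ⊔ XE :=
    le_sup_of_relIndex_le hHR hXR hRY (by rw [hidx']; exact hidx) (by rw [hidx']; exact hle)
      hXcard
  -- (F5) `𝔪 z ⊆ r A + torsion`
  let N : Submodule T J :=
    { carrier := {x | ∃ a ∈ A, ∃ m : ℕ, 0 < m ∧ m • (x - r • a) = 0}
      zero_mem' := ⟨0, A.zero_mem, 1, one_pos, by rw [smul_zero, sub_zero, smul_zero]⟩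
      add_mem' := by
        rintro x y ⟨a, ha, m, hm, hmx⟩ ⟨b, hb, n, hn, hny⟩
        refine ⟨a + b, A.add_mem ha hb, m * n, Nat.mul_pos hm hn, ?_⟩
        have : x + y - r • (a + b) = (x - r • a) + (y - r • b) := by
          rw [smul_add]; abel
        rw [this, smul_add, mul_comm m n, mul_smul, hmx, smul_zero, mul_comm n m, mul_smul,
          hny, smul_zero, add_zero]
      smul_mem' := by
        rintro t x ⟨a, ha, m, hm, hmx⟩
        refine ⟨t • a, hTA t a ha, m, hm, ?_⟩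
        have : t • x - r • t • a = t • (x - r • a) := by
          rw [smul_sub, smul_comm r t a]
        rw [this, smul_comm m t, hmx, smul_zero] }
  have hN : ∀ x : J, x ∈ N ↔ ∃ a ∈ A, ∃ m : ℕ, 0 < m ∧ m • (x - r • a) = 0 := fun _ => Iff.rfl
  have h𝔪z : ∀ t ∈ 𝔪, t • z ∈ N := by
    have hle' : 𝔪 ≤ N.comap (LinearMap.toSpanSingleton T J z) := by
      refine Ideal.span_le.2 ?_
      rintro s (rfl | ⟨i, rfl⟩)
      · show (LinearMap.toSpanSingleton T J z) (r : T) ∈ N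
        rw [LinearMap.toSpanSingleton_apply, Nat.cast_smul_eq_nsmul]
        exact ⟨z, hz, 1, one_pos, by rw [sub_self, smul_zero]⟩
      · show (LinearMap.toSpanSingleton T J z) (gen i) ∈ N
        rw [LinearMap.toSpanSingleton_apply]
        exact hzE i
    intro t ht
    have := hle' ht
    rwa [Submodule.mem_comap, LinearMap.toSpanSingleton_apply] at this
  obtain ⟨a, ha, m, hm, hmτ⟩ := (hN _).1 (h𝔪z f hf𝔪)
  -- `τ = f z - r a` is rational torsion
  have hτA : f • z - r • a ∈ A := A.sub_mem (hTA f z hz) (A.nsmul_mem ha r)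
  have hτ0 := hAt _ hτA ⟨m, hm, hmτ⟩
  -- (F6) `z - τ ∈ R`
  have hzR : z - (f • z - r • a) ∈ R := by
    refine ⟨A.sub_mem hz hτA, f • a, hTA f a ha, ?_⟩
    have h1 : f • (z - (f • z - r • a)) = r • a + ((f • z - r • a) - f • (f • z - r • a)) := by
      rw [smul_sub]; abel
    rw [h1, smul_add, hfsub _ hτ0, add_zero, smul_comm f r a]
  obtain ⟨h, hh, x, hx, hsum⟩ := AddSubgroup.mem_sup.1 (hRle hzR)
  obtain ⟨a', ha', rfl⟩ := (hH h).1 hh
  obtain ⟨_, ⟨n, hn, hnx⟩, _⟩ := (hXE x).1 hx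
  refine ⟨a', ha', m * n, Nat.mul_pos hm hn, ?_⟩
  have : z - r • a' = x + (f • z - r • a) := by
    have h3 := eq_sub_iff_add_eq.mp hsum
    rw [sub_eq_iff_eq_add]
    exact h3.symm.trans (by abel)
  rw [this, smul_add, mul_smul, hnx, smul_zero, mul_comm m n, mul_smul, hmτ, smul_zero,
    add_zero]

end Abs

end Fermat.Agent.S15.H286
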