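import Fermat.Agent.S15.H975.DescSpec
import Fermat.Agent.S15.H302.DescAlg
import Fermat.Agent.S15.H286.Alg0Abs

/-!
# Row S15, DESC skeleton leaf ALG0 (helper286)

`alg0Statement : H975.Alg0Statement` : the descent core `DescCoreTarget p S r` from SEL-BOUND,
DIV, FIN and RTF.  Instantiation of the abstract `alg0_abstract` (file `Alg0Abs.lean`) with
`T =` the polynomial ring on the good Hecke operators (`H302.goodEval`),
`gen ℓ = T_ℓ - (1 + ℓ)`.  Inputs from main: `S29.heckeOperatorsCommuteBar` and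
`S29.H571.heckeEvalBar_smul` (through `H302.goodEval`, `H302.goodEval_galois`).
-/

set_option autoImplicit false

noncomputable section

namespace Fermat.Agent.S15.H286

open ModularCurve Fermat.Agent.S15.H975 Fermat.Agent.S15.H302

/-- **ALG0** (exact skeleton shape). -/
theorem alg0Statement : Alg0Statement := by
  intro p _ S r _ hr hdiv hfin hrtf hsel z hz hzE
  classical
  obtain ⟨e, he, hrtf⟩ := hrtf
  let modJ : Module (GoodAlg p S) (JZero p) := Module.compHom (JZero p) (goodEval p S)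
  have hsmul : ∀ (t : GoodAlg p S) (x : JZero p), t • x = goodEval p S t x := fun _ _ => rfl
  -- the Galois action as additive maps
  let act : Gal → JZero p →+ JZero p := fun σ =>
    { toFun := fun x => σ • x
      map_zero' := smul_zero σ
      map_add' := smul_add σ }
  have hact : ∀ (σ : Gal) (x : JZero p), act σ x = σ • x := fun _ _ => rfl
  -- the generators of the Eisenstein ideal
  let gen : GoodPrime p S → GoodAlg p S := fun ℓ =>
    MvPolynomial.X ℓ - MvPolynomial.C (((1 + (ℓ.1 : ℕ) : ℕ) : ℤ))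
  have hgen_eta : ∀ ℓ : GoodPrime p S, goodEval p S (gen ℓ) = eta p ℓ.1 := by
    intro ℓ
    simp only [gen, map_sub, goodEval_X, goodEval_C, eta, zsmul_one]
  have hgen : ∀ (ℓ : GoodPrime p S) (x : JZero p),
      gen ℓ • x = heckeOperatorBar p ℓ.1 x - (1 + (ℓ.1 : ℕ) : ℕ) • x := by
    intro ℓ x
    rw [hsmul]
    simp only [gen, map_sub, goodEval_X, goodEval_C, LinearMap.sub_apply,
      Module.End.intCast_apply]
    rw [natCast_zsmul]
  have hgenpow : ∀ (ℓ : GoodPrime p S) (k : ℕ) (x : JZero p),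
      gen ℓ ^ k • x = (eta p ℓ.1 ^ k) x := by
    intro ℓ k x
    rw [hsmul, map_pow, hgen_eta]
  have key := alg0_abstract (T := GoodAlg p S) (ι := GoodPrime p S) act
    (fun t σ x => by rw [hact, hact, hsmul, hsmul]; exact goodEval_galois p S t σ x)
    r hr.pos gen hdiv
    (fun n hn => Set.finite_coe_iff.mp (hfin n hn))
    e he
    (fun t ht htor => hrtf t (fun σ => ht σ) htor)
    (rat p) (eis p S r) (sel p r (eis p S r))
    (fun x => Iff.rfl)
    (fun w => by
      constructor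
      · rintro ⟨hw, hE⟩
        refine ⟨hw, fun ℓ => ?_⟩
        obtain ⟨k, hk⟩ := hE ℓ.1 ℓ.2.1 ℓ.2.2
        exact ⟨k, by rw [hgenpow]; exact hk⟩
      · rintro ⟨hw, hE⟩
        refine ⟨hw, fun ℓ h1 h2 => ?_⟩
        obtain ⟨k, hk⟩ := hE ⟨ℓ, h1, h2⟩
        exact ⟨k, by rw [hgenpow] at hk; exact hk⟩)
    (fun y => Iff.rfl)
    hsel.1 hsel.2 z (fun σ => hz σ)
    (fun ℓ => by
      obtain ⟨w, hw, m, hm, hmz⟩ := hzE ℓ.1 ℓ.2.1 ℓ.2.2
      exact ⟨w, fun σ => hw σ, m, hm, by rw [hgen]; exact hmz⟩)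
  obtain ⟨w, hw, m, hm, hmz⟩ := key
  exact ⟨w, fun σ => hw σ, m, hm, by rw [sub_zero]; exact hmz⟩

end Fermat.Agent.S15.H286

end
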