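import Fermat.Agent.S15.H975.DescSpec
import Fermat.Agent.S30.H810.Fin

/-!
# Row S15, DESC skeleton leaf FIN (helper286)

`finStatement : H975.FinStatement` : `J₀(p)[n]` is finite for every `n > 0`.
Glue of the landed `S30.H810.torsion_finite`.
-/

set_option autoImplicit false

namespace Fermat.Agent.S15.H286

open ModularCurve Fermat.Agent.S15.H975

/-- **FIN** (exact skeleton shape): `J₀(p)[n]` is finite. -/
theorem finStatement : FinStatement := by
  intro p _ n hn
  have : NeZero n := ⟨hn.ne'⟩
  have hfin : {x : JZero p | n • x = 0}.Finite := Fermat.Agent.S30.H810.torsion_finite p n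
  exact (hfin.subset (fun x hx => hx)).to_subtype

end Fermat.Agent.S15.H286
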