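import Fermat.Agent.S15.H975.DescSpec

/-!
# Row S15, DESC skeleton leaf RTF (helper286)

The rational torsion of `J₀(p)` has bounded exponent, **from Mordell–Weil**
(the frozen statement S17, taken as a hypothesis; pure group theory):

* `exists_exponent_of_fg` : if `J₀(p)(ℚ)` is finitely generated, some `e > 0` kills every
  rational torsion point;
* `rtfStatement_of_fg` : `H975.RtfStatement` from Mordell–Weil at all prime levels;
* `rtf_of_fg` : the hypothesis of `H975.Alg0Statement` at ONE level `p`.
-/

set_option autoImplicit false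

namespace Fermat.Agent.S15.H286

open ModularCurve Fermat.Agent.S15.H975

/-- A finitely generated abelian group has a positive integer killing all its torsion. -/
theorem exists_exponent_of_addGroup_fg (A : Type*) [AddCommGroup A] (hA : AddGroup.FG A) :
    ∃ e : ℕ, 0 < e ∧ ∀ t : A, (∃ m : ℕ, 0 < m ∧ m • t = 0) → e • t = 0 := by
  classical
  have : Module.Finite ℤ A := Module.Finite.iff_addGroup_fg.mpr hA
  have : IsNoetherian ℤ A := isNoetherian_of_isNoetherianRing_of_finite ℤ A
  -- the torsion submodule
  let Tor : Submodule ℤ A := Submodule.torsion ℤ A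
  have : Module.Finite ℤ Tor := Module.Finite.of_fg (IsNoetherian.noetherian Tor)
  have htor : Module.IsTorsion ℤ Tor := Submodule.torsion_isTorsion
  have : Finite Tor := Module.finite_of_fg_torsion Tor htor
  refine ⟨Nat.card Tor, Nat.card_pos, ?_⟩
  rintro t ⟨m, hm, hmt⟩
  have hmem : t ∈ Tor := by
    rw [Submodule.mem_torsion_iff]
    refine ⟨⟨(m : ℤ), ?_⟩, ?_⟩
    · exact mem_nonZeroDivisors_of_ne_zero (by exact_mod_cast hm.ne')
    · show (m : ℤ) • t = 0
      rw [natCast_zsmul]
      exact hmt
  have h := card_nsmul_eq_zero' (G := Tor) (x := ⟨t, hmem⟩)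
  have h' := congrArg Subtype.val h
  simpa using h'

/-- Mordell–Weil at level `p` gives the bounded exponent of the rational torsion of `J₀(p)`
(the third hypothesis of `H975.Alg0Statement`). -/
theorem rtf_of_fg (p : ℕ) [NeZero p]
    (hMW : AddGroup.FG ↥(FixedPoints.addSubgroup Gal (JZero p))) :
    ∃ e : ℕ, 0 < e ∧
      ∀ t : JZero p, (∀ σ : Gal, σ • t = t) → (∃ m : ℕ, 0 < m ∧ m • t = 0) → e • t = 0 := by
  obtain ⟨e, he, h⟩ := exists_exponent_of_addGroup_fg _ hMW
  refine ⟨e, he, fun t ht ⟨m, hm, hmt⟩ => ?_⟩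
  have h1 := h ⟨t, fun σ => ht σ⟩ ⟨m, hm, Subtype.ext (by simpa using hmt)⟩
  have h2 := congrArg Subtype.val h1
  simpa using h2

/-- **RTF** (exact skeleton shape) from Mordell–Weil at all prime levels. -/
theorem rtfStatement_of_fg
    (hMW : ∀ (p : ℕ) [NeZero p], p.Prime →
      AddGroup.FG ↥(FixedPoints.addSubgroup Gal (JZero p))) :
    RtfStatement := fun p _ hp => rtf_of_fg p (hMW p hp)

end Fermat.Agent.S15.H286
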